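import Mathlib

/-!
# S16, WP-FR (helper377), part 1: explicit cosets of `Γ₀(p)` in `SL₂(ℤ)` and the trace formula

For a prime `p`, `SL₂(ℤ) = Γ₀(p) ⊔ ⨆_{j < p} Γ₀(p) · [0, -1; 1, j]`, hence for every modular form
`F` on `Γ₀(p)`: `Tr F = F + ∑_{j<p} F ∣[k] [0, -1; 1, j]` (Mathlib's `ModularForm.trace 𝒮ℒ`).
-/

set_option autoImplicit false
set_option linter.unusedSectionVars false

namespace Fermat.Agent.S16.H377

open UpperHalfPlane ModularForm Matrix.SpecialLinearGroup SlashInvariantForm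
open scoped MatrixGroups ModularForm Manifold

variable (p : ℕ)

/-- The coset space `SL₂(ℤ) / Γ₀(p)` (in Mathlib's `GL₂(ℝ)`-form). -/
abbrev Cosets : Type :=
  (𝒮ℒ : Subgroup (GL (Fin 2) ℝ)) ⧸
    ((CongruenceSubgroup.Gamma0 p : Subgroup (GL (Fin 2) ℝ)).subgroupOf 𝒮ℒ)

/-- The coset `g⁻¹ Γ₀(p)`, on which `quotientFunc F` is `F ∣[k] g`. -/
noncomputable def cosetOf (g : SL(2, ℤ)) : Cosets p :=
  ((⟨mapGL ℝ g⁻¹, ⟨g⁻¹, rfl⟩⟩ : (𝒮ℒ : Subgroup (GL (Fin 2) ℝ))) : Cosets p)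

theorem quotientFunc_cosetOf {k : ℤ} (F : ModularForm (CongruenceSubgroup.Gamma0 p) k)
    (g : SL(2, ℤ)) : quotientFunc F (cosetOf p g) = (⇑F : ℍ → ℂ) ∣[k] (mapGL ℝ g) := by
  rw [cosetOf]
  show quotientFunc F ⟦_⟧ = _
  rw [quotientFunc_mk]
  simp

theorem cosetOf_eq_iff (g g' : SL(2, ℤ)) :
    cosetOf p g = cosetOf p g' ↔ g * g'⁻¹ ∈ CongruenceSubgroup.Gamma0 p := by
  rw [cosetOf, cosetOf, QuotientGroup.eq, Subgroup.mem_subgroupOf]
  simp only [Subgroup.coe_mul, Subgroup.coe_inv]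
  rw [← map_inv, ← map_mul, inv_inv]
  constructor
  · rintro ⟨x, hx, hxe⟩
    have : x = g * g'⁻¹ := mapGL_injective hxe
    rwa [← this]
  · intro h
    exact Subgroup.mem_map_of_mem _ h

theorem cosetOf_surjective : Function.Surjective (cosetOf p) := by
  intro q
  induction q using Quotient.inductionOn with
  | h r =>
    obtain ⟨r, γ₀, rfl⟩ := r
    refine ⟨γ₀⁻¹, ?_⟩
    rw [cosetOf]
    simp only [inv_inv]

/-- The matrix `S T^j = [0, -1; 1, j]`. -/
def stRep (j : ℤ) : SL(2, ℤ) :=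
  ⟨!![0, -1; 1, j], by rw [Matrix.det_fin_two_of]; ring⟩

@[simp] theorem coe_stRep (j : ℤ) :
    ((stRep j : SL(2, ℤ)) : Matrix (Fin 2) (Fin 2) ℤ) = !![0, -1; 1, j] := rfl

/-- Representatives of `Γ₀(p) \ SL₂(ℤ)`. -/
def repOf : Option (Fin p) → SL(2, ℤ)
  | none => 1
  | some j => stRep (j : ℕ)

theorem Gamma0_mem_iff_dvd {g : SL(2, ℤ)} :
    g ∈ CongruenceSubgroup.Gamma0 p ↔ (p : ℤ) ∣ g 1 0 := by
  rw [CongruenceSubgroup.Gamma0_mem, ZMod.intCast_zmod_eq_zero_iff_dvd]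

theorem mul_inv_apply_one_zero (g h : SL(2, ℤ)) :
    (g * h⁻¹) 1 0 = g 1 0 * h 1 1 - g 1 1 * h 1 0 := by
  rw [Matrix.SpecialLinearGroup.coe_mul, Matrix.SpecialLinearGroup.coe_inv,
    Matrix.adjugate_fin_two, Matrix.mul_apply, Fin.sum_univ_two]
  simp
  ring

variable [hp : Fact p.Prime]

theorem cosetOf_repOf_injective : Function.Injective (fun x => cosetOf p (repOf p x)) := by
  intro x y hxy
  have h := (cosetOf_eq_iff p _ _).mp hxy
  rw [Gamma0_mem_iff_dvd, mul_inv_apply_one_zero] at h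
  have hp1 : ¬ (p : ℤ) ∣ 1 := by
    intro h1
    have := Int.natCast_dvd_natCast.mp (by simpa using h1 : ((p : ℕ) : ℤ) ∣ ((1 : ℕ) : ℤ))
    exact hp.out.one_lt.ne' (Nat.dvd_one.mp this)
  rcases x with _ | j <;> rcases y with _ | j'
  · rfl
  · exfalso
    simp [repOf] at h
    exact hp1 h
  · exfalso
    simp [repOf] at h
    exact hp1 h
  · simp only [repOf, coe_stRep, Matrix.of_apply, Matrix.cons_val', Matrix.cons_val_one,
      Matrix.cons_val_zero] at h
    simp at h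
    congr 1
    apply Fin.ext
    have hj := j.2
    have hj' := j'.2
    obtain ⟨c, hc⟩ := h
    have hlt : |((j' : ℕ) : ℤ) - (j : ℕ)| < p := by
      rw [abs_lt]; constructor <;> omega
    have hc0 : c = 0 := by
      by_contra hne
      have : (p : ℤ) ≤ |((j' : ℕ) : ℤ) - (j : ℕ)| := by
        rw [hc, abs_mul, abs_of_nonneg (Int.natCast_nonneg p)]
        have : 1 ≤ |c| := Int.one_le_abs hne
        nlinarith [Int.natCast_nonneg p]
      omega
    rw [hc0, mul_zero] at hc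
    omega

theorem cosetOf_repOf_surjective : Function.Surjective (fun x => cosetOf p (repOf p x)) := by
  intro q
  obtain ⟨g, rfl⟩ := cosetOf_surjective p q
  haveI : NeZero p := ⟨hp.out.ne_zero⟩
  by_cases hc : (p : ℤ) ∣ g 1 0
  · refine ⟨none, ?_⟩
    show cosetOf p (repOf p none) = cosetOf p g
    rw [cosetOf_eq_iff, Gamma0_mem_iff_dvd, mul_inv_apply_one_zero]
    simp only [repOf]
    simp
    exact hc
  · have hc' : ((g 1 0 : ℤ) : ZMod p) ≠ 0 := by
      rwa [Ne, ZMod.intCast_zmod_eq_zero_iff_dvd]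
    set j : ZMod p := ((g 1 1 : ℤ) : ZMod p) * ((g 1 0 : ℤ) : ZMod p)⁻¹ with hj
    refine ⟨some ⟨j.val, ZMod.val_lt j⟩, ?_⟩
    show cosetOf p (repOf p (some _)) = cosetOf p g
    rw [cosetOf_eq_iff, Gamma0_mem_iff_dvd, mul_inv_apply_one_zero]
    simp only [repOf, coe_stRep, Matrix.of_apply, Matrix.cons_val', Matrix.cons_val_one,
      Matrix.cons_val_zero]
    rw [← ZMod.intCast_zmod_eq_zero_iff_dvd]
    push_cast
    simp only [Matrix.cons_val_fin_one, Int.cast_one, one_mul]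
    rw [ZMod.natCast_zmod_val, hj, mul_assoc, inv_mul_cancel₀ hc', mul_one, sub_self]

/-- The explicit parametrisation of the cosets. -/
noncomputable def cosetEquiv : Option (Fin p) ≃ Cosets p :=
  Equiv.ofBijective (fun x => cosetOf p (repOf p x))
    ⟨cosetOf_repOf_injective p, cosetOf_repOf_surjective p⟩

/-- **Trace formula** for prime level. -/
theorem coe_trace_eq_sum {k : ℤ} (F : ModularForm (CongruenceSubgroup.Gamma0 p) k) :
    (⇑(ModularForm.trace 𝒮ℒ F) : ℍ → ℂ) =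
      ⇑F + ∑ j ∈ Finset.range p, (⇑F : ℍ → ℂ) ∣[k] (mapGL ℝ (stRep (j : ℕ))) := by
  letI : Fintype (Cosets p) := Fintype.ofFinite _
  rw [ModularForm.coe_trace]
  rw [← Equiv.sum_comp (cosetEquiv p), Fintype.sum_option]
  congr 1
  · show quotientFunc F (cosetOf p 1) = _
    rw [quotientFunc_cosetOf]
    simp
  · rw [← Fin.sum_univ_eq_sum_range (fun j => (⇑F : ℍ → ℂ) ∣[k] (mapGL ℝ (stRep (j : ℕ))))]
    refine Finset.sum_congr rfl fun j _ => ?_
    show quotientFunc F (cosetOf p (stRep _)) = _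
    rw [quotientFunc_cosetOf]

end Fermat.Agent.S16.H377
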