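import Mathlib
import Fermat.Prelude.Def_ModularForm_HeckeOperator
import Fermat.Agent.S16.H377.Cosets

/-!
# S16, WP-FR (helper377), part 2: the Fricke matrix `W = [0, -1; p, 0]` and
`Tr F = F + p^(2-k) • U_p (F ∣[k] W)`.
-/

set_option autoImplicit false
set_option linter.unusedSectionVars false

namespace Fermat.Agent.S16.H377

open UpperHalfPlane ModularForm Matrix.SpecialLinearGroup SlashInvariantForm ConjAct
open scoped MatrixGroups ModularForm Manifold Pointwise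

variable (p : ℕ)

/-- The Fricke matrix `[0, -1; p, 0]` (the identity if `p = 0`). -/
noncomputable def frickeMatrix : GL (Fin 2) ℝ :=
  if hp : p = 0 then 1 else
    Matrix.GeneralLinearGroup.mkOfDetNeZero !![0, -1; (p : ℝ), 0]
      (by rw [Matrix.det_fin_two_of]; simpa using hp)

/-- The scalar matrix `p • 1` (the identity if `p = 0`). -/
noncomputable def scalarMatrix : GL (Fin 2) ℝ :=
  if hp : p = 0 then 1 else
    Matrix.GeneralLinearGroup.mkOfDetNeZero !![(p : ℝ), 0; 0, (p : ℝ)]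
      (by rw [Matrix.det_fin_two_of]; simpa using hp)

variable {p}

@[simp] theorem val_frickeMatrix (hp : p ≠ 0) :
    ((frickeMatrix p : GL (Fin 2) ℝ) : Matrix (Fin 2) (Fin 2) ℝ) = !![0, -1; (p : ℝ), 0] := by
  simp [frickeMatrix, hp]

@[simp] theorem val_scalarMatrix (hp : p ≠ 0) :
    ((scalarMatrix p : GL (Fin 2) ℝ) : Matrix (Fin 2) (Fin 2) ℝ) =
      !![(p : ℝ), 0; 0, (p : ℝ)] := by
  simp [scalarMatrix, hp]

theorem det_scalarMatrix (hp : p ≠ 0) : ((scalarMatrix p).det : ℝ) = (p : ℝ) ^ 2 := by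
  rw [Matrix.GeneralLinearGroup.val_det_apply, val_scalarMatrix hp, Matrix.det_fin_two_of]
  ring

theorem det_frickeMatrix (hp : p ≠ 0) : ((frickeMatrix p).det : ℝ) = (p : ℝ) := by
  rw [Matrix.GeneralLinearGroup.val_det_apply, val_frickeMatrix hp, Matrix.det_fin_two_of]
  ring

/-- `W · [1, j; 0, p] = (p • 1) · [0, -1; 1, j]`. -/
theorem frickeMatrix_mul_heckeMatrix (hp : p ≠ 0) (j : ℕ) :
    frickeMatrix p * heckeMatrix p j = scalarMatrix p * mapGL ℝ (stRep (j : ℤ)) := by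
  apply Units.ext
  rw [Units.val_mul, Units.val_mul, val_frickeMatrix hp, val_heckeMatrix hp, val_scalarMatrix hp,
    mapGL_coe_matrix]
  ext a b
  fin_cases a <;> fin_cases b <;>
    simp [Matrix.mul_apply, Fin.sum_univ_two]

/-- Slashing with the scalar matrix `p • 1` multiplies by `p^(k-2)`. -/
theorem slash_scalarMatrix (hp : p ≠ 0) (k : ℤ) (f : ℍ → ℂ) :
    f ∣[k] scalarMatrix p = ((p : ℂ) ^ (k - 2)) • f := by
  have hp' : (p : ℂ) ≠ 0 := by exact_mod_cast hp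
  have hpos : (0 : ℝ) < ((scalarMatrix p).det : ℝ) := by
    rw [det_scalarMatrix hp]; positivity
  ext τ
  have hσ : UpperHalfPlane.σ (scalarMatrix p) = .refl ℝ ℂ := by
    rw [UpperHalfPlane.σ, if_pos hpos]
  have hdenom : UpperHalfPlane.denom (scalarMatrix p) τ = (p : ℂ) := by
    simp [UpperHalfPlane.denom, val_scalarMatrix hp]
  have hsmul : scalarMatrix p • τ = τ := by
    apply UpperHalfPlane.ext
    rw [UpperHalfPlane.coe_smul_of_det_pos hpos]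
    simp [UpperHalfPlane.num, UpperHalfPlane.denom, val_scalarMatrix hp]
    field_simp
  rw [ModularForm.slash_apply, hσ, det_scalarMatrix hp, hdenom, hsmul]
  simp only [ContinuousAlgEquiv.refl_apply, Pi.smul_apply, smul_eq_mul]
  have habs : |(p : ℝ) ^ 2| = (p : ℝ) ^ 2 := abs_of_nonneg (by positivity)
  rw [habs]
  push_cast
  have h1 : ((p : ℂ) ^ 2) ^ (k - 1) = (p : ℂ) ^ (2 * (k - 1)) := by
    rw [← zpow_natCast, ← zpow_mul]
    norm_num
  rw [h1, mul_assoc, ← zpow_add₀ hp', mul_comm]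
  congr 2
  ring

/-- `∑_j f ∣ [0,-1;1,j] = p^(2-k) • U_p (f ∣ W)`. -/
theorem sum_slash_stRep (hp : p ≠ 0) (k : ℤ) (f : ℍ → ℂ) :
    ∑ j ∈ Finset.range p, f ∣[k] (mapGL ℝ (stRep (j : ℕ))) =
      ((p : ℂ) ^ (2 - k)) • heckeU k p (f ∣[k] frickeMatrix p) := by
  have hp' : (p : ℂ) ≠ 0 := by exact_mod_cast hp
  rw [heckeU_def, Finset.smul_sum]
  refine Finset.sum_congr rfl fun j _ => ?_
  rw [← SlashAction.slash_mul, frickeMatrix_mul_heckeMatrix hp, SlashAction.slash_mul,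
    slash_scalarMatrix hp]
  have h1 : (((p : ℂ) ^ (k - 2)) • f) ∣[k] (mapGL ℝ (stRep (j : ℕ))) =
      ((p : ℂ) ^ (k - 2)) • (f ∣[k] (mapGL ℝ (stRep (j : ℕ)))) :=
    SL_smul_slash k (stRep (j : ℕ)) f _
  rw [h1, smul_smul, ← zpow_add₀ hp']
  simp

/-- **Trace formula via Fricke**: `Tr F = F + p^(2-k) • U_p (F ∣[k] W)`. -/
theorem coe_trace_eq_fricke [hpp : Fact p.Prime] {k : ℤ}
    (F : ModularForm (CongruenceSubgroup.Gamma0 p) k) :
    (⇑(ModularForm.trace 𝒮ℒ F) : ℍ → ℂ) =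
      ⇑F + ((p : ℂ) ^ (2 - k)) • heckeU k p ((⇑F : ℍ → ℂ) ∣[k] frickeMatrix p) := by
  rw [coe_trace_eq_sum, sum_slash_stRep hpp.out.ne_zero]

theorem fricke_det_eq (g : SL(2, ℤ)) : g 0 0 * g 1 1 - g 0 1 * g 1 0 = 1 := by
  have h := g.det_coe
  rwa [Matrix.det_fin_two] at h

/-- `W` normalises `Γ₀(p)`. -/
theorem frickeMatrix_mul_mapGL (hp : p ≠ 0) (g : SL(2, ℤ)) (e : ℤ) (he : g 1 0 = p * e) :
    ∃ g' : SL(2, ℤ), g' 1 0 = -(p * g 0 1) ∧
      frickeMatrix p * mapGL ℝ g = mapGL ℝ g' * frickeMatrix p := by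
  have hdet := fricke_det_eq g
  obtain ⟨g', hg'⟩ : ∃ g' : SL(2, ℤ),
      (g' : Matrix (Fin 2) (Fin 2) ℤ) = !![g 1 1, -e; -(p * g 0 1), g 0 0] := by
    refine ⟨⟨!![g 1 1, -e; -(p * g 0 1), g 0 0], ?_⟩, rfl⟩
    rw [Matrix.det_fin_two_of]
    linear_combination hdet + (g 0 1) * he
  refine ⟨g', by rw [hg']; rfl, ?_⟩
  apply Units.ext
  rw [Units.val_mul, Units.val_mul, val_frickeMatrix hp, mapGL_coe_matrix, mapGL_coe_matrix]
  have he' : ((g 1 0 : ℤ) : ℝ) = p * e := by exact_mod_cast he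
  ext i j
  fin_cases i <;> fin_cases j <;>
    simp [Matrix.mul_apply, Fin.sum_univ_two, he', hg'] <;> ring

theorem Gamma0_le_conj_frickeMatrix (hp : p ≠ 0) :
    (CongruenceSubgroup.Gamma0 p : Subgroup (GL (Fin 2) ℝ)) ≤
      toConjAct (frickeMatrix p)⁻¹ • (CongruenceSubgroup.Gamma0 p : Subgroup (GL (Fin 2) ℝ)) := by
  rintro _ ⟨g, hg, rfl⟩
  have hcN : (p : ℤ) ∣ g 1 0 := (Gamma0_mem_iff_dvd p).mp hg
  obtain ⟨e, he⟩ := hcN
  obtain ⟨g', hg'1, hg'⟩ := frickeMatrix_mul_mapGL hp g e he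
  rw [Subgroup.mem_pointwise_smul_iff_inv_smul_mem, ← toConjAct_inv, inv_inv, toConjAct_smul, hg',
    mul_inv_cancel_right]
  refine Subgroup.mem_map_of_mem _ ?_
  rw [Gamma0_mem_iff_dvd, hg'1]
  exact ⟨-(g 0 1), by ring⟩

/-- `F ∣[k] W` as a modular form on `Γ₀(p)`. -/
noncomputable def frickeForm [NeZero p] {k : ℤ} (F : ModularForm (CongruenceSubgroup.Gamma0 p) k) :
    ModularForm (CongruenceSubgroup.Gamma0 p) k where
  toFun := (⇑F : ℍ → ℂ) ∣[k] frickeMatrix p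
  slash_action_eq' γ hγ :=
    (ModularForm.translate F (frickeMatrix p)).slash_action_eq' γ
      (Gamma0_le_conj_frickeMatrix (NeZero.ne p) hγ)
  holo' := (ModularForm.translate F (frickeMatrix p)).holo'
  bdd_at_cusps' hc :=
    (ModularForm.translate F (frickeMatrix p)).bdd_at_cusps'
      (hc.mono (Gamma0_le_conj_frickeMatrix (NeZero.ne p)))

@[simp] theorem coe_frickeForm [NeZero p] {k : ℤ}
    (F : ModularForm (CongruenceSubgroup.Gamma0 p) k) :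
    (⇑(frickeForm F) : ℍ → ℂ) = (⇑F : ℍ → ℂ) ∣[k] frickeMatrix p := rfl

/-- `W² = (p • 1) · (-1)`. -/
theorem frickeMatrix_mul_self (hp : p ≠ 0) :
    frickeMatrix p * frickeMatrix p = scalarMatrix p * mapGL ℝ (-1 : SL(2, ℤ)) := by
  apply Units.ext
  rw [Units.val_mul, Units.val_mul, val_frickeMatrix hp, val_scalarMatrix hp, mapGL_coe_matrix]
  ext a b
  fin_cases a <;> fin_cases b <;>
    simp [Matrix.mul_apply, Fin.sum_univ_two]

/-- The Fricke operator is an involution up to `p^(k-2)`. -/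
theorem fricke_fricke [NeZero p] {k : ℤ} (F : ModularForm (CongruenceSubgroup.Gamma0 p) k) :
    ((⇑F : ℍ → ℂ) ∣[k] frickeMatrix p) ∣[k] frickeMatrix p = ((p : ℂ) ^ (k - 2)) • ⇑F := by
  have hp := NeZero.ne p
  rw [← SlashAction.slash_mul, frickeMatrix_mul_self hp, SlashAction.slash_mul,
    slash_scalarMatrix hp]
  have h1 : (((p : ℂ) ^ (k - 2)) • (⇑F : ℍ → ℂ)) ∣[k] (mapGL ℝ (-1 : SL(2, ℤ))) =
      ((p : ℂ) ^ (k - 2)) • ((⇑F : ℍ → ℂ) ∣[k] (mapGL ℝ (-1 : SL(2, ℤ)))) :=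
    SL_smul_slash k (-1 : SL(2, ℤ)) _ _
  rw [h1]
  congr 1
  have hmem : (-1 : SL(2, ℤ)) ∈ CongruenceSubgroup.Gamma0 p := by
    rw [Gamma0_mem_iff_dvd]
    simp
  exact F.slash_action_eq' _ (Subgroup.mem_map_of_mem _ hmem)

section WeightTwo

variable [hpp : Fact p.Prime]

theorem levelOne_weight_two_eq_zero (G : ModularForm 𝒮ℒ 2) : G = 0 :=
  rank_zero_iff_forall_zero.mp ModularForm.levelOne_weight_two_rank_zero G

theorem trace_weight_two_eq_zero (F : ModularForm (CongruenceSubgroup.Gamma0 p) 2) :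
    ModularForm.trace 𝒮ℒ F = 0 :=
  levelOne_weight_two_eq_zero _

/-- Weight 2: `F = -U_p (F ∣ W)`. -/
theorem eq_neg_heckeU_fricke (F : ModularForm (CongruenceSubgroup.Gamma0 p) 2) :
    (⇑F : ℍ → ℂ) = -heckeU 2 p ((⇑F : ℍ → ℂ) ∣[(2 : ℤ)] frickeMatrix p) := by
  have h := coe_trace_eq_fricke F
  rw [trace_weight_two_eq_zero] at h
  simp only [sub_self, zpow_zero, one_smul] at h
  have h' : (0 : ℍ → ℂ) = ⇑F + heckeU 2 p ((⇑F : ℍ → ℂ) ∣[(2 : ℤ)] frickeMatrix p) := by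
    rw [← h]; rfl
  exact eq_neg_of_add_eq_zero_left h'.symm

/-- Weight 2: `F ∣ W = -U_p F`. -/
theorem fricke_eq_neg_heckeU (F : ModularForm (CongruenceSubgroup.Gamma0 p) 2) :
    (⇑F : ℍ → ℂ) ∣[(2 : ℤ)] frickeMatrix p = -heckeU 2 p (⇑F : ℍ → ℂ) := by
  haveI : NeZero p := ⟨hpp.out.ne_zero⟩
  have h := eq_neg_heckeU_fricke (frickeForm F)
  rw [coe_frickeForm, fricke_fricke] at h
  simpa using h

/-- Weight 2: `U_p² = 1` on `M₂(Γ₀(p))`. -/
theorem heckeU_heckeU (F : ModularForm (CongruenceSubgroup.Gamma0 p) 2) :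
    heckeU 2 p (heckeU 2 p (⇑F : ℍ → ℂ)) = ⇑F := by
  have h := eq_neg_heckeU_fricke F
  rw [fricke_eq_neg_heckeU, heckeU_neg, neg_neg] at h
  exact h.symm

theorem isZeroAtImInfty_heckeU_of {f : ℍ → ℂ} (k : ℤ) (hf : IsZeroAtImInfty f) :
    IsZeroAtImInfty (heckeU k p f) := by
  have h10 : ∀ j : ℕ, ((heckeMatrix p j : GL (Fin 2) ℝ) : Matrix (Fin 2) (Fin 2) ℝ) 1 0 = 0 := by
    intro j
    rw [val_heckeMatrix hpp.out.ne_zero]; rfl
  exact Finset.sum_induction _ (fun g : ℍ → ℂ => IsZeroAtImInfty g)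
    (fun _ _ ha hb => ha.add hb) (Filter.zero_zeroAtFilter atImInfty)
    (fun j _ => hf.slash k (h10 j))

/-- Weight 2: a modular form on `Γ₀(p)` vanishing at `∞` vanishes at every cusp. -/
theorem isZeroAtImInfty_slash_of_weight_two (F : ModularForm (CongruenceSubgroup.Gamma0 p) 2)
    (h0 : IsZeroAtImInfty (⇑F : ℍ → ℂ)) (σ : SL(2, ℤ)) :
    IsZeroAtImInfty ((⇑F : ℍ → ℂ) ∣[(2 : ℤ)] (mapGL ℝ σ)) := by
  have hp := hpp.out.ne_zero
  obtain ⟨x, hx⟩ := cosetOf_repOf_surjective p (cosetOf p σ)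
  have hmem := (cosetOf_eq_iff p _ _).mp hx
  have hσ : σ = (repOf p x * σ⁻¹)⁻¹ * repOf p x := by group
  have hF : (⇑F : ℍ → ℂ) ∣[(2 : ℤ)] (mapGL ℝ σ) = (⇑F : ℍ → ℂ) ∣[(2 : ℤ)] (mapGL ℝ (repOf p x)) := by
    conv_lhs => rw [hσ, map_mul, SlashAction.slash_mul]
    congr 1
    exact F.slash_action_eq' _ (Subgroup.mem_map_of_mem _ (inv_mem hmem))
  rw [hF]
  rcases x with _ | j
  · simpa [repOf] using h0
  · show IsZeroAtImInfty ((⇑F : ℍ → ℂ) ∣[(2 : ℤ)] (mapGL ℝ (stRep ((j : ℕ) : ℤ))))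
    have h1 : ((⇑F : ℍ → ℂ) ∣[(2 : ℤ)] frickeMatrix p) ∣[(2 : ℤ)] heckeMatrix p j =
        (⇑F : ℍ → ℂ) ∣[(2 : ℤ)] (mapGL ℝ (stRep ((j : ℕ) : ℤ))) := by
      rw [← SlashAction.slash_mul, frickeMatrix_mul_heckeMatrix hp, SlashAction.slash_mul,
        slash_scalarMatrix hp]
      simp
    rw [← h1, fricke_eq_neg_heckeU]
    have h10 : ((heckeMatrix p j : GL (Fin 2) ℝ) : Matrix (Fin 2) (Fin 2) ℝ) 1 0 = 0 := by
      rw [val_heckeMatrix hp]; rfl
    have h2 : IsZeroAtImInfty (-heckeU 2 p (⇑F : ℍ → ℂ)) :=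
      (isZeroAtImInfty_heckeU_of 2 h0).neg
    exact h2.slash 2 h10

/-- **(C)** Weight 2: a modular form on `Γ₀(p)` vanishing at `∞` is a cusp form. -/
noncomputable def cuspFormOfIsZeroAtImInfty (F : ModularForm (CongruenceSubgroup.Gamma0 p) 2)
    (h0 : IsZeroAtImInfty (⇑F : ℍ → ℂ)) : CuspForm (CongruenceSubgroup.Gamma0 p) 2 where
  toFun := F
  slash_action_eq' := F.slash_action_eq'
  holo' := F.holo'
  zero_at_cusps' {c} hc := by
    haveI : NeZero p := ⟨hpp.out.ne_zero⟩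
    rw [Subgroup.IsArithmetic.isCusp_iff_isCusp_SL2Z] at hc
    rw [OnePoint.isZeroAt_iff_forall_SL2Z hc]
    intro γ _
    exact isZeroAtImInfty_slash_of_weight_two F h0 γ

@[simp] theorem coe_cuspFormOfIsZeroAtImInfty (F : ModularForm (CongruenceSubgroup.Gamma0 p) 2)
    (h0 : IsZeroAtImInfty (⇑F : ℍ → ℂ)) :
    (⇑(cuspFormOfIsZeroAtImInfty F h0) : ℍ → ℂ) = ⇑F := rfl

end WeightTwo

end Fermat.Agent.S16.H377
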