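import Fermat.Agent.S16.Defs
import Fermat.Agent.S20.C0_helper516
import Fermat.Prelude.Thm_CongruenceSubgroup_one_mem_strictPeriods_Gamma0
import Fermat.Prelude.Thm_ModularFormClass_qCoeff_heckeU
import Fermat.Agent.S16.H377.Fricke

/-!
# S16, WP-FR (helper377): the skeleton-shaped statements

Exact statements of `origin/helper556:Fermat/Agent/S16/Skeleton.lean`, section FR, in namespace
`Fermat.Agent.S16.H377.FR`.
-/

set_option autoImplicit false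
set_option linter.unusedSectionVars false

noncomputable section

namespace Fermat.Agent.S16.H377.FR

open UpperHalfPlane ModularForm CongruenceSubgroup MatrixGroups ModularFormClass EisensteinSeries
open Matrix.SpecialLinearGroup
open Fermat.Agent.S20 (MF SF)
open Fermat.Agent.S16
open scoped Manifold

local notation "Δ" => ModularForm.discriminant

theorem frickeMatrix_eq (p : ℕ) : frickeMatrix p = frickeGL p := rfl

variable (p : ℕ) [hpp : Fact p.Prime]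

theorem det_frickeGL : ((frickeGL p).det : ℝ) = (p : ℝ) := by
  rw [← frickeMatrix_eq]; exact det_frickeMatrix hpp.out.ne_zero

theorem det_frickeGL_pos : (0 : ℝ) < ((frickeGL p).det : ℝ) := by
  rw [det_frickeGL]; exact_mod_cast hpp.out.pos

theorem σ_frickeGL : UpperHalfPlane.σ (frickeGL p) = .refl ℝ ℂ := by
  rw [UpperHalfPlane.σ, if_pos (det_frickeGL_pos p)]

theorem val_frickeGL :
    ((frickeGL p : GL (Fin 2) ℝ) : Matrix (Fin 2) (Fin 2) ℝ) = !![0, -1; (p : ℝ), 0] := by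
  rw [← frickeMatrix_eq]; exact val_frickeMatrix hpp.out.ne_zero

theorem denom_frickeGL (z : ℍ) : UpperHalfPlane.denom (frickeGL p) z = (p : ℂ) * z := by
  simp [UpperHalfPlane.denom, val_frickeGL p]

theorem coe_fricke_smul (z : ℍ) : ((frickeGL p • z : ℍ) : ℂ) = -1 / ((p : ℂ) * z) := by
  rw [UpperHalfPlane.coe_smul_of_det_pos (det_frickeGL_pos p)]
  simp [UpperHalfPlane.num, UpperHalfPlane.denom, val_frickeGL p]

theorem slash_frickeGL_apply (k : ℤ) (F : ℍ → ℂ) (z : ℍ) :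
    (F ∣[k] frickeGL p) z = (p : ℂ)⁻¹ * ((z : ℂ) ^ (-k) * F (frickeGL p • z)) := by
  have hp' : (p : ℂ) ≠ 0 := by exact_mod_cast hpp.out.ne_zero
  have hz : (z : ℂ) ≠ 0 := UpperHalfPlane.ne_zero z
  rw [ModularForm.slash_apply, σ_frickeGL, det_frickeGL, denom_frickeGL]
  simp only [ContinuousAlgEquiv.refl_apply, Nat.abs_cast, Complex.ofReal_natCast]
  rw [mul_zpow, zpow_sub₀ hp', zpow_one, zpow_neg, zpow_neg]
  field_simp

theorem hat_apply (k : ℤ) (F : ℍ → ℂ) (z : ℍ) :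
    hat p k F z = (z : ℂ) ^ (-k) * F (frickeGL p • z) := by
  have hp' : (p : ℂ) ≠ 0 := by exact_mod_cast hpp.out.ne_zero
  rw [hat, Pi.smul_apply, slash_frickeGL_apply, smul_eq_mul, ← mul_assoc, mul_inv_cancel₀ hp',
    one_mul]

theorem hat_add (k : ℤ) (F G : ℍ → ℂ) : hat p k (F + G) = hat p k F + hat p k G := by
  rw [hat, hat, hat, SlashAction.add_slash, smul_add]

theorem hat_smul (k : ℤ) (c : ℂ) (F : ℍ → ℂ) : hat p k (c • F) = c • hat p k F := by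
  rw [hat, hat, ModularForm.smul_slash, σ_frickeGL, ContinuousAlgEquiv.refl_apply, smul_comm]

theorem hat_mul (k₁ k₂ : ℤ) (F₁ F₂ : ℍ → ℂ) :
    hat p (k₁ + k₂) (F₁ * F₂) = hat p k₁ F₁ * hat p k₂ F₂ := by
  ext z
  have hz : (z : ℂ) ≠ 0 := UpperHalfPlane.ne_zero z
  rw [Pi.mul_apply, hat_apply, hat_apply, hat_apply, Pi.mul_apply, neg_add, zpow_add₀ hz]
  ring

theorem hat_pow (k : ℤ) (n : ℕ) (F : ℍ → ℂ) : hat p (n * k) (F ^ n) = hat p k F ^ n := by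
  ext z
  have hz : (z : ℂ) ≠ 0 := UpperHalfPlane.ne_zero z
  rw [Pi.pow_apply, hat_apply, hat_apply, Pi.pow_apply, mul_pow, ← zpow_natCast ((z : ℂ) ^ (-k)),
    ← zpow_mul]
  congr 2
  ring

theorem frickeGL_smul_smul (z : ℍ) : frickeGL p • frickeGL p • z = z := by
  have hp' : (p : ℂ) ≠ 0 := by exact_mod_cast hpp.out.ne_zero
  have hz : (z : ℂ) ≠ 0 := UpperHalfPlane.ne_zero z
  apply UpperHalfPlane.ext
  rw [coe_fricke_smul, coe_fricke_smul]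
  field_simp

theorem hat_hat {k : ℤ} (hk : Even k) (F : ℍ → ℂ) :
    hat p k (hat p k F) = ((p : ℂ) ^ k) • F := by
  have hp' : (p : ℂ) ≠ 0 := by exact_mod_cast hpp.out.ne_zero
  ext z
  have hz : (z : ℂ) ≠ 0 := UpperHalfPlane.ne_zero z
  rw [hat_apply, hat_apply, frickeGL_smul_smul, coe_fricke_smul, Pi.smul_apply, smul_eq_mul,
    ← mul_assoc, ← mul_zpow]
  congr 1
  have h1 : (z : ℂ) * (-1 / ((p : ℂ) * z)) = -(p : ℂ)⁻¹ := by
    field_simp
  rw [h1, zpow_neg, hk.neg_zpow, inv_zpow, inv_inv]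

/-! ### bundling -/

theorem exists_bundled {k : ℤ} {F : ℍ → ℂ} (hF : F ∈ MF (Gamma0 p) k) :
    ∃ F' : ModularForm (Gamma0 p) k, (⇑F' : ℍ → ℂ) = F :=
  Fermat.Agent.S20.C0h516.mem_MF_iff_exists.mp hF

theorem coe_mem_MF {k : ℤ} (F' : ModularForm (Gamma0 p) k) : (⇑F' : ℍ → ℂ) ∈ MF (Gamma0 p) k :=
  Fermat.Agent.S20.C0h516.coe_mem_MF F'

theorem hat_eq_smul_slash (k : ℤ) (F : ℍ → ℂ) : hat p k F = (p : ℂ) • (F ∣[k] frickeGL p) := rfl

theorem hat_mem_MF {k : ℤ} {F : ℍ → ℂ} (hF : F ∈ MF (Gamma0 p) k) :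
    hat p k F ∈ MF (Gamma0 p) k := by
  haveI : NeZero p := ⟨hpp.out.ne_zero⟩
  obtain ⟨F', rfl⟩ := exists_bundled p hF
  rw [hat_eq_smul_slash]
  exact (MF (Gamma0 p) k).smul_mem _ (coe_mem_MF p (frickeForm F'))

/-! ### `V_p` -/

theorem Vp_eq_smul_slash (k : ℤ) (H : ℍ → ℂ) :
    Vp p H = ((p : ℂ) ^ (1 - k)) • (H ∣[k] heckeDiagMatrix p) := by
  have hp' : (p : ℂ) ≠ 0 := by exact_mod_cast hpp.out.ne_zero
  ext z
  rw [Pi.smul_apply, slash_heckeDiagMatrix_apply k hpp.out.ne_zero, smul_eq_mul, ← mul_assoc,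
    ← zpow_add₀ hp']
  simp [Vp]

theorem heckeDiag_det_eq (g : SL(2, ℤ)) : g 0 0 * g 1 1 - g 0 1 * g 1 0 = 1 := by
  have h := g.det_coe
  rwa [Matrix.det_fin_two] at h

theorem heckeDiagMatrix_mul_mapGL' (g : SL(2, ℤ)) (e : ℤ) (he : g 1 0 = p * e) :
    ∃ g' : SL(2, ℤ), heckeDiagMatrix p * mapGL ℝ g = mapGL ℝ g' * heckeDiagMatrix p := by
  have hp := hpp.out.ne_zero
  have hdet := heckeDiag_det_eq g
  obtain ⟨g', hg'⟩ : ∃ g' : SL(2, ℤ),
      (g' : Matrix (Fin 2) (Fin 2) ℤ) = !![g 0 0, p * g 0 1; e, g 1 1] := by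
    refine ⟨⟨!![g 0 0, p * g 0 1; e, g 1 1], ?_⟩, rfl⟩
    rw [Matrix.det_fin_two_of]
    linear_combination hdet + (g 0 1) * he
  refine ⟨g', ?_⟩
  apply Units.ext
  rw [Units.val_mul, Units.val_mul, val_heckeDiagMatrix hp, mapGL_coe_matrix, mapGL_coe_matrix]
  have he' : ((g 1 0 : ℤ) : ℝ) = p * e := by exact_mod_cast he
  ext i j
  fin_cases i <;> fin_cases j <;>
    simp [Matrix.mul_apply, Fin.sum_univ_two, he', hg'] <;> ring

open ConjAct Pointwise in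
theorem Gamma0_le_conj_heckeDiag :
    (Gamma0 p : Subgroup (GL (Fin 2) ℝ)) ≤
      toConjAct (heckeDiagMatrix p)⁻¹ • (𝒮ℒ : Subgroup (GL (Fin 2) ℝ)) := by
  rintro _ ⟨g, hg, rfl⟩
  obtain ⟨e, he⟩ := (Gamma0_mem_iff_dvd p).mp hg
  obtain ⟨g', hg'⟩ := heckeDiagMatrix_mul_mapGL' p g e he
  rw [Subgroup.mem_pointwise_smul_iff_inv_smul_mem, ← toConjAct_inv, inv_inv, toConjAct_smul, hg',
    mul_inv_cancel_right]
  exact ⟨g', rfl⟩

/-- `H ∣[k] diag(p,1)` as a modular form on `Γ₀(p)`, for `H` of level one. -/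
def levelRaise {k : ℤ} (H : ModularForm 𝒮ℒ k) : ModularForm (Gamma0 p) k where
  toFun := (⇑H : ℍ → ℂ) ∣[k] heckeDiagMatrix p
  slash_action_eq' γ hγ :=
    (ModularForm.translate H (heckeDiagMatrix p)).slash_action_eq' γ
      (Gamma0_le_conj_heckeDiag p hγ)
  holo' := (ModularForm.translate H (heckeDiagMatrix p)).holo'
  bdd_at_cusps' hc :=
    (ModularForm.translate H (heckeDiagMatrix p)).bdd_at_cusps'
      (hc.mono (Gamma0_le_conj_heckeDiag p))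

theorem Vp_mem_MF {k : ℤ} {H : ℍ → ℂ} (hH : H ∈ MF ⊤ k) : Vp p H ∈ MF (Gamma0 p) k := by
  obtain ⟨H', rfl⟩ := Fermat.Agent.S20.C0h516.mem_MF_top_iff_exists.mp hH
  rw [Vp_eq_smul_slash p k]
  exact (MF (Gamma0 p) k).smul_mem _ (coe_mem_MF p (levelRaise p H'))

theorem frickeGL_eq_S_mul : frickeGL p = mapGL ℝ ModularGroup.S * heckeDiagMatrix p := by
  apply Units.ext
  rw [Units.val_mul, val_frickeGL, val_heckeDiagMatrix hpp.out.ne_zero, mapGL_coe_matrix]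
  ext a b
  fin_cases a <;> fin_cases b <;>
    simp [Matrix.mul_apply, Fin.sum_univ_two, ModularGroup.coe_S]

theorem slash_top_eq {k : ℤ} {H : ℍ → ℂ} (hH : H ∈ MF ⊤ k) (γ : SL(2, ℤ)) :
    H ∣[k] (mapGL ℝ γ) = H := hH.2.1 γ (Subgroup.mem_top _)

theorem hat_levelOne {k : ℤ} {H : ℍ → ℂ} (hH : H ∈ MF ⊤ k) :
    hat p k H = ((p : ℂ) ^ k) • Vp p H := by
  have hp' : (p : ℂ) ≠ 0 := by exact_mod_cast hpp.out.ne_zero
  rw [hat_eq_smul_slash, frickeGL_eq_S_mul, SlashAction.slash_mul, slash_top_eq hH,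
    Vp_eq_smul_slash p k, smul_smul]
  congr 1
  rw [← zpow_add₀ hp']
  simp

theorem heckeDiagMatrix_mul_frickeGL :
    heckeDiagMatrix p * frickeGL p = scalarMatrix p * mapGL ℝ ModularGroup.S := by
  have hp := hpp.out.ne_zero
  apply Units.ext
  rw [Units.val_mul, Units.val_mul, val_frickeGL, val_heckeDiagMatrix hp,
    val_scalarMatrix hp, mapGL_coe_matrix]
  ext a b
  fin_cases a <;> fin_cases b <;>
    simp [Matrix.mul_apply, Fin.sum_univ_two, ModularGroup.coe_S]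

theorem hat_Vp {k : ℤ} {H : ℍ → ℂ} (hH : H ∈ MF ⊤ k) : hat p k (Vp p H) = H := by
  have hp := hpp.out.ne_zero
  have hp' : (p : ℂ) ≠ 0 := by exact_mod_cast hpp.out.ne_zero
  rw [Vp_eq_smul_slash p k, hat_smul, hat_eq_smul_slash, ← SlashAction.slash_mul,
    heckeDiagMatrix_mul_frickeGL, SlashAction.slash_mul, slash_scalarMatrix hp]
  have h1 : (((p : ℂ) ^ (k - 2)) • H) ∣[k] (mapGL ℝ ModularGroup.S) =
      ((p : ℂ) ^ (k - 2)) • (H ∣[k] (mapGL ℝ ModularGroup.S)) :=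
    SL_smul_slash k ModularGroup.S _ _
  rw [h1, slash_top_eq hH, smul_smul, smul_smul]
  have hc : (p : ℂ) ^ (1 - k) * (p : ℂ) * (p : ℂ) ^ (k - 2) = 1 := by
    have : (p : ℂ) ^ (1 - k) * (p : ℂ) * (p : ℂ) ^ (k - 2) =
        (p : ℂ) ^ ((1 - k) + 1 + (k - 2)) := by
      rw [zpow_add₀ hp', zpow_add₀ hp', zpow_one]
    rw [this]
    have h0 : (1 - k) + 1 + (k - 2) = 0 := by ring
    rw [h0, zpow_zero]
  rw [hc, one_smul]

/-! ### the trace -/

theorem stRep_eq (j : ℕ) : stRep (j : ℤ) = ModularGroup.S * ModularGroup.T ^ j := by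
  apply Subtype.ext
  rw [Matrix.SpecialLinearGroup.coe_mul, ← zpow_natCast, ModularGroup.coe_T_zpow,
    ModularGroup.coe_S, coe_stRep]
  ext a b
  fin_cases a <;> fin_cases b <;> simp [Matrix.mul_apply, Fin.sum_univ_two]

theorem heckeU_hat (k : ℤ) (F : ℍ → ℂ) :
    ((p : ℂ) ^ (1 - k)) • heckeU k p (hat p k F) =
      ((p : ℂ) ^ (2 - k)) • heckeU k p (F ∣[k] frickeGL p) := by
  have hp' : (p : ℂ) ≠ 0 := by exact_mod_cast hpp.out.ne_zero
  rw [hat_eq_smul_slash, heckeU_smul, smul_smul]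
  congr 1
  rw [show (2 : ℤ) - k = (1 - k) + 1 by ring, zpow_add₀ hp', zpow_one]

/-- `tr F = F + ∑_{j<p} F ∣[k] (S T^j)`. -/
theorem tr_eq_sum (k : ℤ) (F : ℍ → ℂ) :
    tr p k F = F + ∑ j ∈ Finset.range p, F ∣[k] (ModularGroup.S * ModularGroup.T ^ j) := by
  rw [tr, heckeU_hat, ← frickeMatrix_eq, ← sum_slash_stRep hpp.out.ne_zero]
  congr 1
  refine Finset.sum_congr rfl fun j _ => ?_
  rw [stRep_eq]
  rfl

theorem tr_eq_coe_trace {k : ℤ} (F' : ModularForm (Gamma0 p) k) :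
    tr p k (⇑F' : ℍ → ℂ) = ⇑(ModularForm.trace 𝒮ℒ F') := by
  rw [coe_trace_eq_fricke, tr, heckeU_hat, frickeMatrix_eq]

theorem tr_mem_MF {k : ℤ} {F : ℍ → ℂ} (hF : F ∈ MF (Gamma0 p) k) : tr p k F ∈ MF ⊤ k := by
  obtain ⟨F', rfl⟩ := exists_bundled p hF
  rw [tr_eq_coe_trace]
  exact Fermat.Agent.S20.C0h516.mem_MF_top_iff_exists.mpr ⟨_, rfl⟩

theorem quotientFunc_congr' {Γ : Subgroup (GL (Fin 2) ℝ)} {k : ℤ} {F₁ F₂ : Type*}
    [FunLike F₁ ℍ ℂ] [FunLike F₂ ℍ ℂ] [SlashInvariantFormClass F₁ Γ k]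
    [SlashInvariantFormClass F₂ Γ k] (f₁ : F₁) (f₂ : F₂) (h : (⇑f₁ : ℍ → ℂ) = ⇑f₂)
    (q : (𝒮ℒ : Subgroup (GL (Fin 2) ℝ)) ⧸ (Γ.subgroupOf 𝒮ℒ)) :
    SlashInvariantForm.quotientFunc f₁ q = SlashInvariantForm.quotientFunc f₂ q := by
  induction q using Quotient.inductionOn with
  | h r => rw [SlashInvariantForm.quotientFunc_mk, SlashInvariantForm.quotientFunc_mk, h]

theorem tr_mem_SF {k : ℤ} {F : ℍ → ℂ} (hF : F ∈ SF (Gamma0 p) k) : tr p k F ∈ SF ⊤ k := by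
  haveI : NeZero p := ⟨hpp.out.ne_zero⟩
  obtain ⟨F', rfl⟩ := Fermat.Agent.S20.C0h516.mem_SF_iff_exists.mp hF
  let F'' : ModularForm (Gamma0 p) k :=
    { toFun := F'
      slash_action_eq' := F'.slash_action_eq'
      holo' := F'.holo'
      bdd_at_cusps' := fun hc γ hγ => (F'.zero_at_cusps' hc γ hγ).boundedAtFilter }
  have h1 : tr p k (⇑F' : ℍ → ℂ) = ⇑(ModularForm.trace 𝒮ℒ F'') := tr_eq_coe_trace p F''
  have h2 : (⇑(ModularForm.trace 𝒮ℒ F'') : ℍ → ℂ) = ⇑(CuspForm.trace 𝒮ℒ F') := by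
    rw [ModularForm.coe_trace, CuspForm.coe_trace]
    exact Finset.sum_congr rfl fun q _ => quotientFunc_congr' F'' F' rfl q
  rw [h1, h2]
  exact Fermat.Agent.S20.C0h516.mem_SF_top_iff_exists.mpr ⟨_, rfl⟩

theorem slash_top_eq' {k : ℤ} {H : ℍ → ℂ} (hH : H ∈ MF ⊤ k) (γ : SL(2, ℤ)) :
    H ∣[k] γ = H := hH.2.1 γ (Subgroup.mem_top _)

theorem tr_mul_levelOne {a : ℤ} (k : ℤ) {H : ℍ → ℂ} (hH : H ∈ MF ⊤ a) (F : ℍ → ℂ) :
    tr p (a + k) (H * F) = H * tr p k F := by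
  rw [tr_eq_sum, tr_eq_sum, mul_add, Finset.mul_sum]
  congr 1
  refine Finset.sum_congr rfl fun j _ => ?_
  rw [mul_slash_SL2, slash_top_eq' hH]

theorem tr_levelOne {k : ℤ} {H : ℍ → ℂ} (hH : H ∈ MF ⊤ k) :
    tr p k H = ((p : ℂ) + 1) • H := by
  rw [tr_eq_sum]
  have : ∑ j ∈ Finset.range p, H ∣[k] (ModularGroup.S * ModularGroup.T ^ j) =
      ∑ _j ∈ Finset.range p, H :=
    Finset.sum_congr rfl fun j _ => slash_top_eq' hH _
  rw [this, Finset.sum_const, Finset.card_range, add_smul, one_smul, add_comm]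
  congr 1
  ext z
  simp

/-! ### weight two -/

/-- Weight 2: `M₂(SL₂ℤ) = 0` forces `G^ = -p U_p G`. -/
theorem hat_two {G : ℍ → ℂ} (hG : G ∈ MF (Gamma0 p) 2) :
    hat p 2 G = (-(p : ℂ)) • heckeU 2 p G := by
  obtain ⟨G', rfl⟩ := exists_bundled p hG
  rw [hat_eq_smul_slash, ← frickeMatrix_eq, fricke_eq_neg_heckeU]
  ext z
  simp only [Pi.smul_apply, Pi.neg_apply, smul_eq_mul]
  ring

theorem heckeU_two_mem {G : ℍ → ℂ} (hG : G ∈ MF (Gamma0 p) 2) :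
    heckeU 2 p G ∈ MF (Gamma0 p) 2 := by
  have hp' : (p : ℂ) ≠ 0 := by exact_mod_cast hpp.out.ne_zero
  have h := hat_mem_MF p hG
  rw [hat_two p hG] at h
  have h2 := (MF (Gamma0 p) 2).smul_mem (-(p : ℂ))⁻¹ h
  rwa [smul_smul, inv_mul_cancel₀ (neg_ne_zero.mpr hp'), one_smul] at h2

theorem heckeU_two_sq {G : ℍ → ℂ} (hG : G ∈ MF (Gamma0 p) 2) :
    heckeU 2 p (heckeU 2 p G) = G := by
  obtain ⟨G', rfl⟩ := exists_bundled p hG
  exact heckeU_heckeU G'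

/-! ### cusp criterion -/

theorem isZeroAtImInfty_of_qCoeff_zero {k : ℤ} {F : ℍ → ℂ} (hF : F ∈ MF (Gamma0 p) k)
    (h0 : qCoeff F 0 = 0) : IsZeroAtImInfty F := by
  haveI : NeZero p := ⟨hpp.out.ne_zero⟩
  obtain ⟨F', rfl⟩ := exists_bundled p hF
  have hΓ := CongruenceSubgroup.one_mem_strictPeriods_Gamma0 p
  have hanal := ModularFormClass.analyticAt_cuspFunction_zero F' one_pos hΓ
  have hper := SlashInvariantFormClass.periodic_comp_ofComplex F' hΓ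
  have hv : valueAtInfty (⇑F' : ℍ → ℂ) = 0 := by
    rw [← qExpansion_coeff_zero one_pos hanal hper]
    exact h0
  simp_rw [IsZeroAtImInfty, Filter.ZeroAtFilter, ← hv, ← cuspFunction_apply_zero one_pos hanal hper]
  exact (hanal.continuousAt.tendsto.comp (qParam_tendsto_atImInfty one_pos)).congr
    (fun τ ↦ SlashInvariantFormClass.eq_cuspFunction F' τ hΓ one_ne_zero)

/-- Two cusps: vanishing at `∞` of `F` and of `F^` makes `F` a cusp form. -/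
theorem mem_SF_of_qCoeff_zero {k : ℤ} {F : ℍ → ℂ} (hF : F ∈ MF (Gamma0 p) k)
    (h0 : qCoeff F 0 = 0) (h0' : qCoeff (hat p k F) 0 = 0) : F ∈ SF (Gamma0 p) k := by
  have hp := hpp.out.ne_zero
  have hp' : (p : ℂ) ≠ 0 := by exact_mod_cast hpp.out.ne_zero
  have hz : IsZeroAtImInfty F := isZeroAtImInfty_of_qCoeff_zero p hF h0
  have hzhat : IsZeroAtImInfty (hat p k F) :=
    isZeroAtImInfty_of_qCoeff_zero p (hat_mem_MF p hF) h0'
  have hzW : IsZeroAtImInfty (F ∣[k] frickeGL p) := by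
    have : F ∣[k] frickeGL p = (p : ℂ)⁻¹ • hat p k F := by
      rw [hat_eq_smul_slash, smul_smul, inv_mul_cancel₀ hp', one_smul]
    rw [this]
    exact hzhat.smul _
  refine ⟨hF.1, hF.2.1, fun σ => ?_⟩
  obtain ⟨x, hx⟩ := cosetOf_repOf_surjective p (cosetOf p σ)
  have hmem := (cosetOf_eq_iff p _ _).mp hx
  have hσ : σ = (repOf p x * σ⁻¹)⁻¹ * repOf p x := by group
  have hFσ : F ∣[k] σ = F ∣[k] (repOf p x) := by
    conv_lhs => rw [hσ, SlashAction.slash_mul]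
    congr 1
    exact hF.2.1 _ (inv_mem hmem)
  rw [hFσ]
  rcases x with _ | j
  · simpa [repOf] using hz
  · show IsZeroAtImInfty (F ∣[k] (mapGL ℝ (stRep ((j : ℕ) : ℤ))))
    have h1 : (F ∣[k] frickeGL p) ∣[k] heckeMatrix p j =
        ((p : ℂ) ^ (k - 2)) • (F ∣[k] (mapGL ℝ (stRep ((j : ℕ) : ℤ)))) := by
      rw [← SlashAction.slash_mul, ← frickeMatrix_eq, frickeMatrix_mul_heckeMatrix hp,
        SlashAction.slash_mul, slash_scalarMatrix hp]
      exact SL_smul_slash k (stRep ((j : ℕ) : ℤ)) F _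
    have h10 : ((heckeMatrix p j : GL (Fin 2) ℝ) : Matrix (Fin 2) (Fin 2) ℝ) 1 0 = 0 := by
      rw [val_heckeMatrix hp]; rfl
    have h2 : IsZeroAtImInfty ((F ∣[k] frickeGL p) ∣[k] heckeMatrix p j) := hzW.slash k h10
    rw [h1] at h2
    have h3 := h2.smul ((p : ℂ) ^ (k - 2))⁻¹
    rwa [smul_smul, inv_mul_cancel₀ (zpow_ne_zero _ hp'), one_smul] at h3

theorem cusp_crit : ∀ G ∈ MF (Gamma0 p) 2, qCoeff G 0 = 0 → G ∈ SF (Gamma0 p) 2 := by
  intro G hG h0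
  haveI : NeZero p := ⟨hpp.out.ne_zero⟩
  refine mem_SF_of_qCoeff_zero p hG h0 ?_
  obtain ⟨G', hG'⟩ := exists_bundled p hG
  obtain ⟨U', hU'⟩ := exists_bundled p (heckeU_two_mem p hG)
  have hΓ := CongruenceSubgroup.one_mem_strictPeriods_Gamma0 p
  rw [hat_two p hG, ← hU']
  show (qExpansion 1 ((-(p : ℂ)) • (⇑U' : ℍ → ℂ))).coeff 0 = 0
  rw [qExpansion_smul (ModularFormClass.analyticAt_cuspFunction_zero U' one_pos hΓ),
    PowerSeries.coeff_smul]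
  have hU0 : (qExpansion 1 (⇑U' : ℍ → ℂ)).coeff 0 = 0 := by
    rw [hU', ← hG']
    have := ModularFormClass.qCoeff_heckeU (k := 2) G' hΓ hpp.out.ne_zero 0
    rw [ModularForm.coeffHeckeU_apply, zero_mul] at this
    rw [hG'] at this ⊢
    exact this.trans h0
  rw [hU0, smul_zero]

end Fermat.Agent.S16.H377.FR
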