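import Mathlib
import Fermat.Prelude.Def_ModularForm_HeckeOperator
import Fermat.Agent.S16.H377.Fricke

/-!
# S16, WP-U0 (helper377): the exact trace identity

For `G ∈ M₂(Γ₀(p))`, `Tr (G · Δ(p·)) ∈ S₁₄(SL₂(ℤ)) = 0` gives
`(Δ ∣[12] diag(p,1)) · G = p⁻¹ • U_p (Δ · U_p G)`, i.e. `G(z) Δ(pz) = p⁻¹² U_p((U_p G) Δ)(z)`.
-/

set_option autoImplicit false
set_option linter.unusedSectionVars false

namespace Fermat.Agent.S16.H377

open UpperHalfPlane ModularForm Matrix.SpecialLinearGroup SlashInvariantForm ConjAct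
open scoped MatrixGroups ModularForm Manifold Pointwise

variable {p : ℕ}

/-- `diag(p,1)` conjugates `Γ₀(p)` into `SL₂(ℤ)`. -/
theorem heckeDiagMatrix_mul_mapGL (hp : p ≠ 0) (g : SL(2, ℤ)) (e : ℤ) (he : g 1 0 = p * e) :
    ∃ g' : SL(2, ℤ), heckeDiagMatrix p * mapGL ℝ g = mapGL ℝ g' * heckeDiagMatrix p := by
  have hdet := fricke_det_eq g
  obtain ⟨g', hg'⟩ : ∃ g' : SL(2, ℤ),
      (g' : Matrix (Fin 2) (Fin 2) ℤ) = !![g 0 0, p * g 0 1; e, g 1 1] := by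
    refine ⟨⟨!![g 0 0, p * g 0 1; e, g 1 1], ?_⟩, rfl⟩
    rw [Matrix.det_fin_two_of]
    linear_combination hdet + (g 0 1) * he
  refine ⟨g', ?_⟩
  apply Units.ext
  rw [Units.val_mul, Units.val_mul, val_heckeDiagMatrix hp, mapGL_coe_matrix, mapGL_coe_matrix]
  have he' : ((g 1 0 : ℤ) : ℝ) = p * e := by exact_mod_cast he
  ext i j
  fin_cases i <;> fin_cases j <;>
    simp [Matrix.mul_apply, Fin.sum_univ_two, he', hg'] <;> ring

theorem Gamma0_le_conj_heckeDiagMatrix (hp : p ≠ 0) :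
    (CongruenceSubgroup.Gamma0 p : Subgroup (GL (Fin 2) ℝ)) ≤
      toConjAct (heckeDiagMatrix p)⁻¹ • (𝒮ℒ : Subgroup (GL (Fin 2) ℝ)) := by
  rintro _ ⟨g, hg, rfl⟩
  obtain ⟨e, he⟩ := (Gamma0_mem_iff_dvd p).mp hg
  obtain ⟨g', hg'⟩ := heckeDiagMatrix_mul_mapGL hp g e he
  rw [Subgroup.mem_pointwise_smul_iff_inv_smul_mem, ← toConjAct_inv, inv_inv, toConjAct_smul, hg',
    mul_inv_cancel_right]
  exact ⟨g', rfl⟩

variable (p) in
/-- `Δ ∣[12] diag(p,1)` (i.e. `p¹¹ Δ(p·)`) as a cusp form on `Γ₀(p)`. -/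
noncomputable def deltaP [NeZero p] : CuspForm (CongruenceSubgroup.Gamma0 p) 12 where
  toFun := (⇑CuspForm.discriminant : ℍ → ℂ) ∣[(12 : ℤ)] heckeDiagMatrix p
  slash_action_eq' γ hγ :=
    (CuspForm.translate CuspForm.discriminant (heckeDiagMatrix p)).slash_action_eq' γ
      (Gamma0_le_conj_heckeDiagMatrix (NeZero.ne p) hγ)
  holo' := (CuspForm.translate CuspForm.discriminant (heckeDiagMatrix p)).holo'
  zero_at_cusps' hc :=
    (CuspForm.translate CuspForm.discriminant (heckeDiagMatrix p)).zero_at_cusps'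
      (hc.mono (Gamma0_le_conj_heckeDiagMatrix (NeZero.ne p)))

theorem coe_deltaP [NeZero p] :
    (⇑(deltaP p) : ℍ → ℂ) = (ModularForm.discriminant : ℍ → ℂ) ∣[(12 : ℤ)] heckeDiagMatrix p :=
  rfl

theorem deltaP_apply [NeZero p] (τ : ℍ) :
    deltaP p τ = (p : ℂ) ^ (11 : ℕ) * ModularForm.discriminant (heckeDiagMatrix p • τ) := by
  show ((ModularForm.discriminant : ℍ → ℂ) ∣[(12 : ℤ)] heckeDiagMatrix p) τ = _
  rw [slash_heckeDiagMatrix_apply 12 (NeZero.ne p)]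
  norm_num

/-- `diag(p,1) · W = (p • 1) · S`. -/
theorem heckeDiagMatrix_mul_frickeMatrix (hp : p ≠ 0) :
    heckeDiagMatrix p * frickeMatrix p = scalarMatrix p * mapGL ℝ ModularGroup.S := by
  apply Units.ext
  rw [Units.val_mul, Units.val_mul, val_frickeMatrix hp, val_heckeDiagMatrix hp,
    val_scalarMatrix hp, mapGL_coe_matrix]
  ext a b
  fin_cases a <;> fin_cases b <;>
    simp [Matrix.mul_apply, Fin.sum_univ_two, ModularGroup.coe_S]

/-- `(Δ ∣ diag(p,1)) ∣ W = p¹⁰ • Δ`. -/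
theorem deltaP_slash_fricke [NeZero p] :
    (⇑(deltaP p) : ℍ → ℂ) ∣[(12 : ℤ)] frickeMatrix p =
      ((p : ℂ) ^ (10 : ℕ)) • (ModularForm.discriminant : ℍ → ℂ) := by
  have hp := NeZero.ne p
  rw [coe_deltaP, ← SlashAction.slash_mul, heckeDiagMatrix_mul_frickeMatrix hp,
    SlashAction.slash_mul, slash_scalarMatrix hp]
  have h1 : (((p : ℂ) ^ ((12 : ℤ) - 2)) • (ModularForm.discriminant : ℍ → ℂ)) ∣[(12 : ℤ)]
      (mapGL ℝ ModularGroup.S) =
      ((p : ℂ) ^ ((12 : ℤ) - 2)) • ((ModularForm.discriminant : ℍ → ℂ) ∣[(12 : ℤ)]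
        (mapGL ℝ ModularGroup.S)) :=
    SL_smul_slash 12 ModularGroup.S _ _
  rw [h1]
  have h2 : (ModularForm.discriminant : ℍ → ℂ) ∣[(12 : ℤ)] (mapGL ℝ ModularGroup.S) =
      ModularForm.discriminant :=
    CuspForm.discriminant.slash_action_eq' _ ⟨ModularGroup.S, rfl⟩
  rw [h2]
  norm_num

theorem quotientFunc_congr {Γ : Subgroup (GL (Fin 2) ℝ)} {k : ℤ} {F₁ F₂ : Type*}
    [FunLike F₁ ℍ ℂ] [FunLike F₂ ℍ ℂ] [SlashInvariantFormClass F₁ Γ k]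
    [SlashInvariantFormClass F₂ Γ k] (f₁ : F₁) (f₂ : F₂) (h : (⇑f₁ : ℍ → ℂ) = ⇑f₂)
    (q : (𝒮ℒ : Subgroup (GL (Fin 2) ℝ)) ⧸ (Γ.subgroupOf 𝒮ℒ)) :
    quotientFunc f₁ q = quotientFunc f₂ q := by
  induction q using Quotient.inductionOn with
  | h r => rw [quotientFunc_mk, quotientFunc_mk, h]

theorem levelOne_cuspForm_weight_fourteen_eq_zero (H : CuspForm 𝒮ℒ (12 + 2)) : H = 0 := by
  have h : CuspForm.discriminantEquiv H = 0 :=
    levelOne_weight_two_eq_zero (CuspForm.discriminantEquiv H)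
  exact (LinearEquiv.map_eq_zero_iff _).mp h

section Identity

variable [hpp : Fact p.Prime]

theorem slash_fricke_deltaP_mul [NeZero p] (G : ModularForm (CongruenceSubgroup.Gamma0 p) 2) :
    ((⇑(deltaP p) : ℍ → ℂ) * ⇑G) ∣[(12 + 2 : ℤ)] frickeMatrix p =
      (-((p : ℂ) ^ (11 : ℕ))) •
        ((ModularForm.discriminant : ℍ → ℂ) * heckeU 2 p (⇑G : ℍ → ℂ)) := by
  have hp := NeZero.ne p
  rw [ModularForm.mul_slash, deltaP_slash_fricke, fricke_eq_neg_heckeU, det_frickeMatrix hp]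
  have habs : |(p : ℝ)| = (p : ℝ) := abs_of_nonneg (by positivity)
  rw [habs]
  ext τ
  simp only [Pi.smul_apply, Pi.mul_apply, Pi.neg_apply, smul_eq_mul, Complex.real_smul]
  push_cast
  ring

/-- **U0**: `(Δ ∣[12] diag(p,1)) · G = p⁻¹ • U_p (Δ · U_p G)` for `G ∈ M₂(Γ₀(p))`. -/
theorem deltaP_mul_eq (G : ModularForm (CongruenceSubgroup.Gamma0 p) 2) :
    haveI : NeZero p := ⟨hpp.out.ne_zero⟩
    (⇑(deltaP p) : ℍ → ℂ) * ⇑G =
      ((p : ℂ)⁻¹) • heckeU (12 + 2) p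
        ((ModularForm.discriminant : ℍ → ℂ) * heckeU 2 p (⇑G : ℍ → ℂ)) := by
  haveI : NeZero p := ⟨hpp.out.ne_zero⟩
  have hp' : (p : ℂ) ≠ 0 := by exact_mod_cast hpp.out.ne_zero
  set H : CuspForm (CongruenceSubgroup.Gamma0 p) (12 + 2) := (deltaP p).mulModularForm G with hH
  let H' : ModularForm (CongruenceSubgroup.Gamma0 p) (12 + 2) :=
    { toFun := H
      slash_action_eq' := H.slash_action_eq'
      holo' := H.holo'
      bdd_at_cusps' := fun hc γ hγ => (H.zero_at_cusps' hc γ hγ).boundedAtFilter }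
  have hH' : (⇑H' : ℍ → ℂ) = (⇑(deltaP p) : ℍ → ℂ) * ⇑G := rfl
  have htr0 : (⇑(ModularForm.trace 𝒮ℒ H') : ℍ → ℂ) = 0 := by
    have h1 : CuspForm.trace 𝒮ℒ H = 0 := levelOne_cuspForm_weight_fourteen_eq_zero _
    have h2 : (⇑(ModularForm.trace 𝒮ℒ H') : ℍ → ℂ) = ⇑(CuspForm.trace 𝒮ℒ H) := by
      rw [ModularForm.coe_trace, CuspForm.coe_trace]
      exact Finset.sum_congr rfl fun q _ => quotientFunc_congr H' H rfl q
    rw [h2, h1]
    rfl
  have h := coe_trace_eq_fricke H'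
  rw [htr0, hH', slash_fricke_deltaP_mul, heckeU_smul, smul_smul] at h
  have hc : (p : ℂ) ^ ((2 : ℤ) - (12 + 2)) * -((p : ℂ) ^ (11 : ℕ)) = -(p : ℂ)⁻¹ := by
    rw [mul_neg, ← zpow_natCast, ← zpow_add₀ hp']
    norm_num
  rw [hc] at h
  ext τ
  have hτ := congrFun h τ
  simp only [Pi.zero_apply, Pi.add_apply, Pi.smul_apply, smul_eq_mul] at hτ ⊢
  linear_combination -hτ

end Identity

end Fermat.Agent.S16.H377
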