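import Fermat.Agent.S16.Defs
import Fermat.Agent.S20.C0_helper516
import Fermat.Prelude.Thm_CongruenceSubgroup_one_mem_strictPeriods_Gamma0
import Fermat.Prelude.Thm_ModularFormClass_qCoeff_heckeU
import Fermat.Agent.S16.H377.SkelFR
import Fermat.Agent.S16.H377.U0
import Fermat.Agent.S16.H556.Basic

/-!
# S16, work package U0 (helper377): the exact trace identity, skeleton shapes

* `U0_identity`  : `G · V_p Δ = p⁻¹² U_p (U_p G · Δ)` for `G ∈ M₂(Γ₀(p))`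
* `U0_coeffs`    : the coefficients of `q¹` and `q^p` in `U0_identity`
* `U0_denominator_of` : the denominator statement, from any integral `τ` with
  `τ(p²) = τ(p)² - p¹¹` (i.e. from the statement of `Skel.exists_tau`).
-/

set_option autoImplicit false

noncomputable section

namespace Fermat.Agent.S16.H377.U0S

open UpperHalfPlane ModularForm CongruenceSubgroup MatrixGroups ModularFormClass EisensteinSeries
open Matrix.SpecialLinearGroup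
open Fermat.Agent.S20 (MF SF)
open Fermat.Agent.S16
open scoped Manifold

local notation "Δ" => ModularForm.discriminant

variable (p : ℕ) [hpp : Fact p.Prime]

/-- `G(z) Δ(pz) = p⁻¹² U_p (U_p G · Δ)`, from `Tr (G · Δ(p·)) ∈ S₁₄(SL₂ℤ) = 0`. -/
theorem U0_identity {G : ℍ → ℂ} (hG : G ∈ MF (Gamma0 p) 2) :
    G * Vp p (Δ : ℍ → ℂ) = ((p : ℂ) ^ (-12 : ℤ)) • heckeU 14 p (heckeU 2 p G * (Δ : ℍ → ℂ)) := by
  haveI : NeZero p := ⟨hpp.out.ne_zero⟩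
  obtain ⟨G', rfl⟩ := FR.exists_bundled p hG
  have hp' : (p : ℂ) ≠ 0 := by exact_mod_cast hpp.out.ne_zero
  have h := deltaP_mul_eq G'
  have e14 : ((12 : ℤ) + 2) = 14 := by norm_num
  rw [e14] at h
  rw [mul_comm (heckeU 2 p (⇑G' : ℍ → ℂ)) _]
  ext z
  have hz := congrFun h z
  simp only [Pi.mul_apply, Pi.smul_apply, smul_eq_mul, deltaP_apply] at hz
  simp only [Pi.mul_apply, Pi.smul_apply, smul_eq_mul, Vp]
  have e12 : (p : ℂ) ^ (-12 : ℤ) = ((p : ℂ) ^ (11 : ℕ))⁻¹ * (p : ℂ)⁻¹ := by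
    rw [← mul_inv, ← pow_succ, zpow_neg]
    norm_cast
  rw [e12, mul_assoc, ← hz]
  field_simp

/-! ### `q`-expansion tools -/

theorem one_mem_strictPeriods_Gamma0 :
    (1 : ℝ) ∈ (Gamma0 p : Subgroup (GL (Fin 2) ℝ)).strictPeriods := by
  simp [CongruenceSubgroup.strictPeriods_Gamma0]

theorem one_mem_strictPeriods_SL : (1 : ℝ) ∈ (𝒮ℒ : Subgroup (GL (Fin 2) ℝ)).strictPeriods := by
  simp

theorem MF_top_le {k : ℤ} {H : ℍ → ℂ} (hH : H ∈ MF ⊤ k) : H ∈ MF (Gamma0 p) k :=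
  ⟨hH.1, fun γ _ => hH.2.1 γ (Subgroup.mem_top _), hH.2.2⟩

theorem discriminant_mem_MF_top : (Δ : ℍ → ℂ) ∈ MF ⊤ 12 :=
  Fermat.Agent.S20.SF_le_MF _ _
    (Fermat.Agent.S20.C0h516.mem_SF_top_iff_exists.mpr ⟨CuspForm.discriminant, rfl⟩)

theorem qCoeff_mul {k₁ k₂ : ℤ} {F H : ℍ → ℂ} (hF : F ∈ MF (Gamma0 p) k₁)
    (hH : H ∈ MF (Gamma0 p) k₂) (n : ℕ) :
    qCoeff (F * H) n =
      ∑ x ∈ Finset.HasAntidiagonal.antidiagonal n, qCoeff F x.1 * qCoeff H x.2 := by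
  haveI : NeZero p := ⟨hpp.out.ne_zero⟩
  unfold qCoeff
  rw [qExpansion_mul (H556.analyticAt_of_mem_MF hF) (H556.analyticAt_of_mem_MF hH),
    PowerSeries.coeff_mul]

theorem qCoeff_heckeU_of_mem {k : ℤ} {F : ℍ → ℂ} (hF : F ∈ MF (Gamma0 p) k) (n : ℕ) :
    qCoeff (heckeU k p F) n = qCoeff F (n * p) := by
  obtain ⟨F', rfl⟩ := FR.exists_bundled p hF
  exact ModularFormClass.qCoeff_heckeU F' (one_mem_strictPeriods_Gamma0 p) hpp.out.ne_zero n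

theorem qParam_heckeDiag (z : ℍ) :
    Function.Periodic.qParam 1 ((heckeDiagMatrix p • z : ℍ) : ℂ) =
      Function.Periodic.qParam 1 (z : ℂ) ^ p := by
  rw [coe_heckeDiagMatrix_smul hpp.out.ne_zero]
  simp only [Function.Periodic.qParam]
  rw [← Complex.exp_nat_mul]
  congr 1
  push_cast
  ring

theorem hasSum_Vp {k : ℤ} {H : ℍ → ℂ} (hH : H ∈ MF ⊤ k) (z : ℍ) :
    HasSum (fun n : ℕ => (if p ∣ n then qCoeff H (n / p) else 0) •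
      Function.Periodic.qParam 1 (z : ℂ) ^ n) (Vp p H z) := by
  obtain ⟨H', rfl⟩ := Fermat.Agent.S20.C0h516.mem_MF_top_iff_exists.mp hH
  have hp0 : 0 < p := hpp.out.pos
  haveI : Fact (IsCusp OnePoint.infty (𝒮ℒ : Subgroup (GL (Fin 2) ℝ))) :=
    ⟨Subgroup.isCusp_of_mem_strictPeriods one_pos one_mem_strictPeriods_SL⟩
  have hs := ModularForm.hasSum_qExpansion (h := 1) H' one_pos one_mem_strictPeriods_SL
    (heckeDiagMatrix p • z)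
  rw [qParam_heckeDiag] at hs
  have hinj : Function.Injective (fun m : ℕ => p * m) := fun a b h =>
    Nat.eq_of_mul_eq_mul_left hp0 h
  have h0 : ∀ x ∉ Set.range (fun m : ℕ => p * m),
      (fun n : ℕ => (if p ∣ n then qCoeff (⇑H' : ℍ → ℂ) (n / p) else 0) •
        Function.Periodic.qParam 1 (z : ℂ) ^ n) x = 0 := by
    intro x hx
    have : ¬ p ∣ x := fun ⟨m, hm⟩ => hx ⟨m, hm.symm⟩
    simp [this]
  refine (hinj.hasSum_iff h0).mp ?_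
  convert hs using 2 with m
  · simp only [Function.comp_apply, dvd_mul_right, if_true, Nat.mul_div_cancel_left m hp0,
      smul_eq_mul, qCoeff, pow_mul]
  · rfl

theorem qCoeff_Vp {k : ℤ} {H : ℍ → ℂ} (hH : H ∈ MF ⊤ k) (n : ℕ) :
    qCoeff (Vp p H) n = if p ∣ n then qCoeff H (n / p) else 0 := by
  haveI : NeZero p := ⟨hpp.out.ne_zero⟩
  obtain ⟨V, hV⟩ := FR.exists_bundled p (FR.Vp_mem_MF p hH)
  have hs : ∀ τ : ℍ, HasSum (fun m : ℕ => (if p ∣ m then qCoeff H (m / p) else 0) •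
      Function.Periodic.qParam 1 (τ : ℂ) ^ m) (V τ) := fun τ => by
    have := hasSum_Vp p hH τ
    rwa [← hV] at this
  have := ModularFormClass.qExpansion_coeff_unique one_pos (one_mem_strictPeriods_Gamma0 p)
    (f := V) hs n
  rw [this, ← hV, qCoeff]

theorem mul_mem_MF_Gamma0 {k₁ k₂ : ℤ} {F H : ℍ → ℂ} (hF : F ∈ MF (Gamma0 p) k₁)
    (hH : H ∈ MF (Gamma0 p) k₂) : F * H ∈ MF (Gamma0 p) (k₁ + k₂) := by
  obtain ⟨F', rfl⟩ := FR.exists_bundled p hF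
  obtain ⟨H', rfl⟩ := FR.exists_bundled p hH
  exact FR.coe_mem_MF p (F'.mul H')

theorem int_sum_range (n : ℕ) (f : ℕ → ℂ) (hf : ∀ k < n, ∃ m : ℤ, f k = (m : ℂ)) :
    ∃ m : ℤ, ∑ k ∈ Finset.range n, f k = (m : ℂ) := by
  induction n with
  | zero => exact ⟨0, by simp⟩
  | succ n ih =>
    obtain ⟨m₁, h₁⟩ := ih (fun k hk => hf k (Nat.lt_succ_of_lt hk))
    obtain ⟨m₂, h₂⟩ := hf n (Nat.lt_succ_self n)
    exact ⟨m₁ + m₂, by rw [Finset.sum_range_succ, h₁, h₂]; push_cast; ring⟩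

/-- The `N`-th coefficient of `U_p G · Δ` is `a₀(G) τ(N)` plus an integer. -/
theorem qCoeff_heckeU_mul_discriminant (τ : ℕ → ℤ)
    (hτ : ∀ n, qCoeff (Δ : ℍ → ℂ) n = (τ n : ℂ))
    {G : ℍ → ℂ} (hG : G ∈ MF (Gamma0 p) 2) (hint : IntFrom1 G) (N : ℕ) :
    ∃ m : ℤ, qCoeff (heckeU 2 p G * (Δ : ℍ → ℂ)) N = qCoeff G 0 * (τ N : ℂ) + (m : ℂ) := by
  have hp0 : 0 < p := hpp.out.pos
  rw [qCoeff_mul p (FR.heckeU_two_mem p hG) (MF_top_le p discriminant_mem_MF_top),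
    Finset.Nat.sum_antidiagonal_eq_sum_range_succ
      (fun i j => qCoeff (heckeU 2 p G) i * qCoeff (Δ : ℍ → ℂ) j) N,
    Finset.sum_range_succ']
  obtain ⟨m, hm⟩ := int_sum_range N
    (fun k => qCoeff (heckeU 2 p G) (k + 1) * qCoeff (Δ : ℍ → ℂ) (N - (k + 1))) (fun k _ => by
      obtain ⟨a, ha⟩ := hint ((k + 1) * p) (Nat.mul_pos (Nat.succ_pos k) hp0)
      refine ⟨a * τ (N - (k + 1)), ?_⟩
      rw [qCoeff_heckeU_of_mem p hG, ha, hτ]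
      push_cast
      ring)
  refine ⟨m, ?_⟩
  rw [hm, qCoeff_heckeU_of_mem p hG, hτ, Nat.zero_mul, Nat.sub_zero]
  ring

/-- The coefficient of `q¹` in `G · V_p Δ` vanishes. -/
theorem qCoeff_mul_Vp_one (τ : ℕ → ℤ) (hτ : ∀ n, qCoeff (Δ : ℍ → ℂ) n = (τ n : ℂ))
    (hτ0 : τ 0 = 0) {G : ℍ → ℂ} (hG : G ∈ MF (Gamma0 p) 2) :
    qCoeff (G * Vp p (Δ : ℍ → ℂ)) 1 = 0 := by
  have hp1 : ¬ p ∣ 1 := fun h => hpp.out.one_lt.ne' (Nat.dvd_one.mp h)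
  rw [qCoeff_mul p hG (FR.Vp_mem_MF p discriminant_mem_MF_top)]
  refine Finset.sum_eq_zero fun x hx => ?_
  rw [qCoeff_Vp p discriminant_mem_MF_top]
  have hx' : x.1 + x.2 = 1 := Finset.HasAntidiagonal.mem_antidiagonal.mp hx
  by_cases h : p ∣ x.2
  · have h2 : x.2 = 0 := by
      rcases Nat.eq_zero_or_pos x.2 with h0 | h0
      · exact h0
      · exfalso
        have : x.2 = 1 := by omega
        exact hp1 (this ▸ h)
    rw [if_pos h, h2, Nat.zero_div, hτ, hτ0]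
    simp
  · rw [if_neg h, mul_zero]

/-- The coefficient of `q^p` in `G · V_p Δ` is `a₀(G)`. -/
theorem qCoeff_mul_Vp_p (τ : ℕ → ℤ) (hτ : ∀ n, qCoeff (Δ : ℍ → ℂ) n = (τ n : ℂ))
    (hτ0 : τ 0 = 0) (hτ1 : τ 1 = 1) {G : ℍ → ℂ} (hG : G ∈ MF (Gamma0 p) 2) :
    qCoeff (G * Vp p (Δ : ℍ → ℂ)) p = qCoeff G 0 := by
  have hp0 : 0 < p := hpp.out.pos
  rw [qCoeff_mul p hG (FR.Vp_mem_MF p discriminant_mem_MF_top)]
  rw [Finset.sum_eq_single (0, p)]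
  · rw [qCoeff_Vp p discriminant_mem_MF_top, if_pos (dvd_refl p), Nat.div_self hp0, hτ, hτ1]
    simp
  · intro x hx hne
    rw [qCoeff_Vp p discriminant_mem_MF_top]
    have hx' : x.1 + x.2 = p := Finset.HasAntidiagonal.mem_antidiagonal.mp hx
    by_cases h : p ∣ x.2
    · have h2 : x.2 = 0 := by
        rcases Nat.eq_zero_or_pos x.2 with h0 | h0
        · exact h0
        · exfalso
          have hle : p ≤ x.2 := Nat.le_of_dvd h0 h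
          have h1 : x.1 = 0 := by omega
          have h3 : x.2 = p := by omega
          exact hne (Prod.ext h1 h3)
      rw [if_pos h, h2, Nat.zero_div, hτ, hτ0]
      simp
    · rw [if_neg h, mul_zero]
  · intro h
    exact absurd (Finset.HasAntidiagonal.mem_antidiagonal.mpr (Nat.zero_add p)) h

/-- `U_p (U_p G · Δ) = p¹² • (G · V_p Δ)`. -/
theorem heckeU_eq_smul {G : ℍ → ℂ} (hG : G ∈ MF (Gamma0 p) 2) :
    heckeU 14 p (heckeU 2 p G * (Δ : ℍ → ℂ)) = ((p : ℂ) ^ (12 : ℕ)) • (G * Vp p (Δ : ℍ → ℂ)) := by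
  have hp' : (p : ℂ) ≠ 0 := by exact_mod_cast hpp.out.ne_zero
  rw [U0_identity p hG, smul_smul]
  have : (p : ℂ) ^ (12 : ℕ) * (p : ℂ) ^ (-12 : ℤ) = 1 := by
    rw [← zpow_natCast, ← zpow_add₀ hp']
    norm_num
  rw [this, one_smul]

/-- The `n`-th coefficient of `p¹² G · V_p Δ` is the `np`-th coefficient of `U_p G · Δ`. -/
theorem qCoeff_identity {G : ℍ → ℂ} (hG : G ∈ MF (Gamma0 p) 2) (n : ℕ) :
    qCoeff (heckeU 2 p G * (Δ : ℍ → ℂ)) (n * p) =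
      (p : ℂ) ^ (12 : ℕ) * qCoeff (G * Vp p (Δ : ℍ → ℂ)) n := by
  haveI : NeZero p := ⟨hpp.out.ne_zero⟩
  have e14 : ((2 : ℤ) + 12) = 14 := by norm_num
  have h1 : heckeU 2 p G * (Δ : ℍ → ℂ) ∈ MF (Gamma0 p) (2 + 12) :=
    mul_mem_MF_Gamma0 p (FR.heckeU_two_mem p hG) (MF_top_le p discriminant_mem_MF_top)
  have h2 : G * Vp p (Δ : ℍ → ℂ) ∈ MF (Gamma0 p) (2 + 12) :=
    mul_mem_MF_Gamma0 p hG (FR.Vp_mem_MF p discriminant_mem_MF_top)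
  rw [e14] at h1 h2
  have e1 := qCoeff_heckeU_of_mem p h1 n
  rw [← e1, heckeU_eq_smul p hG, H556.qCoeff_smul h2]

/-- Coefficients of `q¹` and `q^p` in `U0_identity`. -/
theorem U0_coeffs (τ : ℕ → ℤ) (hτ : ∀ n, qCoeff (Δ : ℍ → ℂ) n = (τ n : ℂ))
    (hτ0 : τ 0 = 0) (hτ1 : τ 1 = 1) (hτp : τ (p ^ 2) = τ p ^ 2 - (p : ℤ) ^ 11)
    {G : ℍ → ℂ} (hG : G ∈ MF (Gamma0 p) 2) (hint : IntFrom1 G) :
    (∃ m : ℤ, qCoeff G 0 * (τ p : ℂ) = m) ∧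
      ∃ m : ℤ, qCoeff G 0 * (((p : ℤ) ^ 11 * ((p : ℤ) + 1) - τ p ^ 2 : ℤ) : ℂ) = m := by
  constructor
  · obtain ⟨m, hm⟩ := qCoeff_heckeU_mul_discriminant p τ hτ hG hint (1 * p)
    rw [qCoeff_identity p hG 1, qCoeff_mul_Vp_one p τ hτ hτ0 hG, mul_zero, one_mul] at hm
    refine ⟨-m, ?_⟩
    push_cast
    linear_combination -hm
  · obtain ⟨m, hm⟩ := qCoeff_heckeU_mul_discriminant p τ hτ hG hint (p * p)
    rw [qCoeff_identity p hG p, qCoeff_mul_Vp_p p τ hτ hτ0 hτ1 hG, ← sq, hτp] at hm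
    refine ⟨m, ?_⟩
    push_cast at hm ⊢
    linear_combination hm

/-- Consequence: the constant term is rational, and away from `p` its denominator divides
`p + 1`.  (Here the level one input `Skel.exists_tau` is a hypothesis.) -/
theorem U0_denominator_of
    (hex : ∃ τ : ℕ → ℤ, (∀ n, qCoeff (Δ : ℍ → ℂ) n = (τ n : ℂ)) ∧ τ 0 = 0 ∧ τ 1 = 1 ∧
      ∀ p : ℕ, p.Prime → τ (p ^ 2) = τ p ^ 2 - (p : ℤ) ^ 11)
    {G : ℍ → ℂ} (hG : G ∈ MF (Gamma0 p) 2) (hint : IntFrom1 G) :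
    ∃ r : ℚ, qCoeff G 0 = (r : ℂ) ∧
      ∀ ℓ : ℕ, ℓ.Prime → ℓ ≠ p → ∀ a : ℕ, ℓ ^ a ∣ r.den → ℓ ^ a ∣ p + 1 := by
  obtain ⟨τ, hτ, hτ0, hτ1, hτp⟩ := hex
  obtain ⟨⟨m₁, h₁⟩, ⟨m₂, h₂⟩⟩ := U0_coeffs p τ hτ hτ0 hτ1 (hτp p hpp.out) hG hint
  have hp' : (p : ℂ) ≠ 0 := by exact_mod_cast hpp.out.ne_zero
  have hp1 : ((p : ℂ) + 1) ≠ 0 := by exact_mod_cast (Nat.succ_ne_zero p)
  obtain ⟨D, hD⟩ : ∃ D : ℤ, D = (p : ℤ) ^ 11 * ((p : ℤ) + 1) := ⟨_, rfl⟩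
  have hDC : ((D : ℤ) : ℂ) = (p : ℂ) ^ 11 * ((p : ℂ) + 1) := by rw [hD]; push_cast; ring
  have hD0 : ((D : ℤ) : ℂ) ≠ 0 := by rw [hDC]; exact mul_ne_zero (pow_ne_zero _ hp') hp1
  have hM : qCoeff G 0 * ((D : ℤ) : ℂ) = ((m₂ + m₁ * τ p : ℤ) : ℂ) := by
    rw [hDC]
    push_cast at h₂ ⊢
    linear_combination h₂ + (τ p : ℂ) * h₁
  refine ⟨((m₂ + m₁ * τ p : ℤ) : ℚ) / ((D : ℤ) : ℚ), ?_, ?_⟩
  · rw [Rat.cast_div, Rat.cast_intCast, Rat.cast_intCast, eq_div_iff hD0, hM]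
  · intro ℓ hℓ hne a hdvd
    have h1 : ((((m₂ + m₁ * τ p : ℤ) : ℚ) / ((D : ℤ) : ℚ)).den : ℤ) ∣ D := by
      have := Rat.den_dvd (m₂ + m₁ * τ p) D
      rwa [Rat.divInt_eq_div] at this
    have h2 : ((ℓ ^ a : ℕ) : ℤ) ∣ D := (Int.natCast_dvd_natCast.mpr hdvd).trans h1
    have h3 : ℓ ^ a ∣ p ^ 11 * (p + 1) := by
      have : D = ((p ^ 11 * (p + 1) : ℕ) : ℤ) := by rw [hD]; push_cast; ring
      rw [this] at h2
      exact Int.natCast_dvd_natCast.mp h2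
    have hcop : Nat.Coprime (ℓ ^ a) (p ^ 11) :=
      Nat.Coprime.pow _ _ ((Nat.coprime_primes hℓ hpp.out).mpr hne)
    exact hcop.dvd_of_dvd_mul_left h3

end Fermat.Agent.S16.H377.U0S
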