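import Fermat.Agent.S16.H377.SkelU0
import Fermat.Agent.S16.H547.L1

/-!
# S16, work package U0 (helper377): `U0_denominator` in the exact skeleton shape

`U0_denominator_of` (in `SkelU0.lean`) with the level one input `exists_tau` supplied by
`Fermat.Agent.S16.H547.exists_tau` (helper547, on main).
-/

set_option autoImplicit false

noncomputable section

namespace Fermat.Agent.S16.H377.U0S

open UpperHalfPlane ModularForm CongruenceSubgroup MatrixGroups ModularFormClass EisensteinSeries
open Fermat.Agent.S20 (MF SF)
open Fermat.Agent.S16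
open scoped Manifold

local notation "Δ" => ModularForm.discriminant

variable (p : ℕ) [Fact p.Prime]

/-- Consequence of `U0_coeffs`: the constant term is rational, and away from `p` its denominator
divides `p + 1`. -/
theorem U0_denominator {G : ℍ → ℂ} (hG : G ∈ MF (Gamma0 p) 2) (hint : IntFrom1 G) :
    ∃ r : ℚ, qCoeff G 0 = (r : ℂ) ∧
      ∀ ℓ : ℕ, ℓ.Prime → ℓ ≠ p → ∀ a : ℕ, ℓ ^ a ∣ r.den → ℓ ^ a ∣ p + 1 :=
  U0_denominator_of p Fermat.Agent.S16.H547.exists_tau hG hint

end Fermat.Agent.S16.H377.U0S
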